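import Fermat.Agent.H21.EsC.Interfaces
import Fermat.Agent.H6.S22_gamma0_exists_generators

/-!
# P-ES / ES-C3-RAT (helper70): rational structure of parabolic classes

If every integral parabolic class `Γ₀(N) → ℤ` vanishes at `γ`, then so does every complex
parabolic class.  Proof: the image of a complex class is a finitely generated subgroup of
`(ℂ, +)`, hence free over `ℤ`; a coordinate functional not vanishing at the image of `γ`
composed with the class is an integral parabolic class not vanishing at `γ`.
-/

set_option autoImplicit false

open CongruenceSubgroup ModularCurve.Period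
open scoped MatrixGroups

namespace Fermat.Agent.H70

/-- Abstract form: a homomorphism from (the additive version of) a finitely generated group to
a torsion-free abelian group which does not vanish at `g` has an integer-valued
"coordinate" factoring through it and not vanishing at `g`. -/
theorem exists_int_coordinate_of_ne_zero {G : Type*} [Group G] [Group.FG G]
    {A : Type*} [AddCommGroup A] [Module.IsTorsionFree ℤ A]
    (v : Additive G →+ A) (g : G) (hg : v (Additive.ofMul g) ≠ 0) :
    ∃ c : v.range →+ ℤ, c (v.rangeRestrict (Additive.ofMul g)) ≠ 0 := by
  classical
  have : AddGroup.FG (Additive G) := inferInstance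
  have : AddGroup.FG v.range := inferInstance
  have : Module.Finite ℤ v.range := Module.Finite.iff_addGroup_fg.mpr inferInstance
  have : Module.IsTorsionFree ℤ v.range :=
    Function.Injective.moduleIsTorsionFree (R := ℤ) (N := A) (fun x : v.range => (x : A))
      Subtype.val_injective (fun _ _ => rfl)
  have : Module.Free ℤ v.range := inferInstance
  let b := Module.Free.chooseBasis ℤ v.range
  have hx : v.rangeRestrict (Additive.ofMul g) ≠ 0 := by
    intro h
    apply hg
    have := congrArg (Subtype.val) h
    simpa using this
  have : b.repr (v.rangeRestrict (Additive.ofMul g)) ≠ 0 := by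
    intro h
    exact hx (b.repr.map_eq_zero_iff.mp h)
  obtain ⟨i, hi⟩ := Finsupp.ne_iff.mp this
  exact ⟨(b.coord i).toAddMonoidHom, by simpa using hi⟩

/-- **ES-C3-RAT**: integral parabolic classes detect complex ones. -/
theorem rationalStructureStatement : Fermat.Agent.H21.EsC.RationalStructureStatement := by
  intro N _ γ h v hv
  by_contra hne
  have : Group.FG SL(2, ℤ) := Fermat.Agent.H6.sl2Z_group_fg
  have : Group.FG (Gamma0 N) := Subgroup.fg_of_index_ne_zero (Gamma0 N)
  obtain ⟨c, hc⟩ := exists_int_coordinate_of_ne_zero v γ hne
  refine hc ?_
  have hpar : IsParabolicHom (Gamma0 N) (c.comp v.rangeRestrict) := by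
    intro δ hδ
    have h0 : v.rangeRestrict (Additive.ofMul δ) = 0 := by
      apply Subtype.ext
      simpa using hv δ hδ
    simp [h0]
  simpa using h (c.comp v.rangeRestrict) hpar

end Fermat.Agent.H70
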